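import Mathlib

/-!
# S55-LOC (A), part 0: abstract index lemmas for the `p`-th power endomorphism

`idx A = (powMonoidHom p : A →* A).range.index`, `tor A = Nat.card (powMonoidHom p).ker`.
-/

namespace Fermat.Agent.S55.LOC

section abstract

variable {A : Type*} [CommGroup A]

/-- For an endomorphism `f` of a commutative group `A` and a subgroup `B` of finite index stable
under `f`: `[A : f A] * #(ker f ∩ B) = [B : f B] * #ker f`. -/
theorem index_range_mul_card_ker_inf (f : A →* A) (B : Subgroup A) [B.FiniteIndex]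
    (hB : B.map f ≤ B) :
    f.range.index * Nat.card (B ⊓ f.ker : Subgroup A)
      = (B.map f).relIndex B * Nat.card f.ker := by
  have h1 : (B.map f).index = (B ⊔ f.ker).index * f.range.index := Subgroup.index_map B f
  have h2 : (B.map f).relIndex B * B.index = (B.map f).index := Subgroup.relIndex_mul_index hB
  have h3 : B.relIndex (B ⊔ f.ker) * (B ⊔ f.ker).index = B.index :=
    Subgroup.relIndex_mul_index le_sup_left
  have h4 : B.relIndex (B ⊔ f.ker) = B.relIndex f.ker := Subgroup.relIndex_sup_left f.ker B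
  have h5 : Nat.card (B.subgroupOf f.ker) * B.relIndex f.ker = Nat.card f.ker :=
    Subgroup.card_mul_index (B.subgroupOf f.ker)
  have h6 : Nat.card (B.subgroupOf f.ker) = Nat.card (B ⊓ f.ker : Subgroup A) := by
    rw [← Subgroup.inf_subgroupOf_right]
    exact Nat.card_congr (Subgroup.subgroupOfEquivOfLe inf_le_right).toEquiv
  have h7 : (B ⊔ f.ker).index ≠ 0 := by
    intro h0
    rw [h0, mul_zero] at h3
    exact Subgroup.FiniteIndex.index_ne_zero h3.symm
  have h8 : f.range.index = (B.map f).relIndex B * B.relIndex f.ker := by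
    apply Nat.eq_of_mul_eq_mul_left (Nat.pos_of_ne_zero h7)
    rw [← h1, ← h2, ← h3, h4]
    ring
  rw [h8, ← h5, h6]
  ring

end abstract

section transport

variable {G H : Type*} [CommGroup G] [CommGroup H]

theorem index_range_pow_congr (e : G ≃* H) (p : ℕ) :
    (powMonoidHom p : G →* G).range.index = (powMonoidHom p : H →* H).range.index := by
  rw [← Subgroup.index_map_equiv (powMonoidHom p : G →* G).range e]
  congr 1
  ext y
  simp only [Subgroup.mem_map, MonoidHom.mem_range, powMonoidHom_apply]
  constructor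
  · rintro ⟨_, ⟨x, rfl⟩, rfl⟩
    exact ⟨e x, by simp⟩
  · rintro ⟨x, rfl⟩
    exact ⟨(e.symm x) ^ p, ⟨_, rfl⟩, by simp⟩

theorem card_ker_pow_congr (e : G ≃* H) (p : ℕ) :
    Nat.card (powMonoidHom p : G →* G).ker = Nat.card (powMonoidHom p : H →* H).ker := by
  refine Nat.card_congr (e.toEquiv.subtypeEquiv ?_)
  intro x
  simp only [MonoidHom.mem_ker, powMonoidHom_apply, MulEquiv.toEquiv_eq_coe, MulEquiv.coe_toEquiv]
  rw [← map_pow, EmbeddingLike.map_eq_one_iff]

theorem index_range_pow_prod (p : ℕ) :
    (powMonoidHom p : G × H →* G × H).range.index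
      = (powMonoidHom p : G →* G).range.index * (powMonoidHom p : H →* H).range.index := by
  rw [← Subgroup.index_prod]
  congr 1
  ext ⟨x, y⟩
  simp only [Subgroup.mem_prod, MonoidHom.mem_range, powMonoidHom_apply, Prod.exists,
    Prod.pow_mk, Prod.mk.injEq]
  constructor
  · rintro ⟨a, b, h1, h2⟩
    exact ⟨⟨a, h1⟩, ⟨b, h2⟩⟩
  · rintro ⟨⟨a, h1⟩, ⟨b, h2⟩⟩
    exact ⟨a, b, h1, h2⟩

theorem card_ker_pow_prod (p : ℕ) :
    Nat.card (powMonoidHom p : G × H →* G × H).ker
      = Nat.card (powMonoidHom p : G →* G).ker * Nat.card (powMonoidHom p : H →* H).ker := by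
  rw [← Nat.card_prod]
  have : (powMonoidHom p : G × H →* G × H).ker
      = (powMonoidHom p : G →* G).ker.prod (powMonoidHom p : H →* H).ker := by
    ext ⟨x, y⟩
    simp [Subgroup.mem_prod, MonoidHom.mem_ker, Prod.ext_iff]
  rw [this]
  exact Nat.card_congr (Subgroup.prodEquiv _ _).toEquiv

theorem index_range_pow_int (p : ℕ) :
    (powMonoidHom p : Multiplicative ℤ →* Multiplicative ℤ).range.index = p := by
  have h : (powMonoidHom p : Multiplicative ℤ →* Multiplicative ℤ).range
      = AddSubgroup.toSubgroup (AddSubgroup.zmultiples (p : ℤ)) := by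
    ext x
    simp only [MonoidHom.mem_range, powMonoidHom_apply]
    constructor
    · rintro ⟨y, rfl⟩
      change Multiplicative.toAdd (y ^ p) ∈ AddSubgroup.zmultiples (p : ℤ)
      rw [toAdd_pow, Int.mem_zmultiples_iff]
      exact ⟨Multiplicative.toAdd y, by simp⟩
    · intro hx
      change Multiplicative.toAdd x ∈ AddSubgroup.zmultiples (p : ℤ) at hx
      rw [Int.mem_zmultiples_iff] at hx
      obtain ⟨k, hk⟩ := hx
      refine ⟨Multiplicative.ofAdd k, ?_⟩
      rw [← ofAdd_nsmul, ← ofAdd_toAdd x, hk]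
      simp
  rw [h]
  simp

theorem card_ker_pow_int {p : ℕ} (hp : p ≠ 0) :
    Nat.card (powMonoidHom p : Multiplicative ℤ →* Multiplicative ℤ).ker = 1 := by
  have h : (powMonoidHom p : Multiplicative ℤ →* Multiplicative ℤ).ker = ⊥ := by
    rw [Subgroup.eq_bot_iff_forall]
    intro x hx
    rw [MonoidHom.mem_ker, powMonoidHom_apply] at hx
    have h2 : Multiplicative.toAdd (x ^ p) = 0 := by rw [hx]; rfl
    rw [toAdd_pow] at h2
    have h3 : Multiplicative.toAdd x = 0 := by
      rcases smul_eq_zero.mp h2 with h | h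
      · exact absurd h hp
      · exact h
    exact Multiplicative.toAdd.injective h3
  rw [h]
  simp

end transport

end Fermat.Agent.S55.LOC
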