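import Fermat.Agent.S55.LOC.PowIndex.Index

/-!
# S55-LOC (A), part 1: principal units of a complete discrete valuation ring

`principalUnits I = 1 + I ≤ Oˣ`.  For a uniformizer `ϖ`, `(p : O) = u * ϖ ^ e` and `n > e`:
`x ↦ x ^ p` is a bijection `1 + (ϖ ^ n) → 1 + (ϖ ^ (n + e))`.
-/

namespace Fermat.Agent.S55.LOC

section general

variable {O : Type*} [CommRing O]

/-- The principal units `1 + I`, as a subgroup of `Oˣ`. -/
def principalUnits (I : Ideal O) : Subgroup Oˣ :=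
  (Units.map ((Ideal.Quotient.mk I : O →+* O ⧸ I) : O →* O ⧸ I)).ker

theorem div_mem_principalUnits {I : Ideal O} {v w : Oˣ} :
    v / w ∈ principalUnits I ↔ (v : O) - w ∈ I := by
  rw [principalUnits, MonoidHom.div_mem_ker_iff, Units.ext_iff]
  simp only [Units.coe_map, MonoidHom.coe_coe]
  exact Ideal.Quotient.eq

theorem mem_principalUnits {I : Ideal O} {v : Oˣ} :
    v ∈ principalUnits I ↔ (v : O) - 1 ∈ I := by
  have := div_mem_principalUnits (I := I) (v := v) (w := 1)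
  simpa using this

theorem principalUnits_mono {I J : Ideal O} (h : I ≤ J) : principalUnits I ≤ principalUnits J := by
  intro v hv
  rw [mem_principalUnits] at hv ⊢
  exact h hv

instance principalUnits_finiteIndex (I : Ideal O) [Finite (O ⧸ I)] :
    (principalUnits I).FiniteIndex := by
  unfold principalUnits
  infer_instance

theorem exists_one_add_pow_eq (x : O) (k : ℕ) :
    ∃ g : O, (1 + x) ^ k = 1 + k * x + x ^ 2 * g := by
  induction k with
  | zero => exact ⟨0, by simp⟩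
  | succ k ih =>
    obtain ⟨g, hg⟩ := ih
    exact ⟨k + g + x * g, by rw [pow_succ, hg]; push_cast; ring⟩

/-- `U ϖ n = 1 + (ϖ ^ n)`. -/
abbrev U (ϖ : O) (n : ℕ) : Subgroup Oˣ := principalUnits (Ideal.span {ϖ ^ n})

theorem mem_U {ϖ : O} {n : ℕ} {v : Oˣ} : v ∈ U ϖ n ↔ ∃ a : O, (v : O) = 1 + ϖ ^ n * a := by
  rw [mem_principalUnits, Ideal.mem_span_singleton]
  constructor
  · rintro ⟨a, ha⟩
    exact ⟨a, by rw [← ha]; ring⟩
  · rintro ⟨a, ha⟩
    exact ⟨a, by rw [ha]; ring⟩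

theorem div_mem_U {ϖ : O} {n : ℕ} {v w : Oˣ} :
    v / w ∈ U ϖ n ↔ ∃ a : O, (v : O) = w + ϖ ^ n * a := by
  rw [div_mem_principalUnits, Ideal.mem_span_singleton]
  constructor
  · rintro ⟨a, ha⟩
    exact ⟨a, by rw [← ha]; ring⟩
  · rintro ⟨a, ha⟩
    exact ⟨a, by rw [ha]; ring⟩

theorem U_anti (ϖ : O) {m n : ℕ} (h : m ≤ n) : U ϖ n ≤ U ϖ m := by
  apply principalUnits_mono
  rw [Ideal.span_singleton_le_span_singleton]
  exact pow_dvd_pow ϖ h

theorem pow_mem_U {ϖ : O} {p e : ℕ} {u : Oˣ} (hp : (p : O) = u * ϖ ^ e) {n : ℕ} (hn : e < n) {t : Oˣ}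
    (ht : t ∈ U ϖ n) : t ^ p ∈ U ϖ (n + e) := by
  rw [mem_U] at ht ⊢
  obtain ⟨a, ha⟩ := ht
  obtain ⟨g, hg⟩ := exists_one_add_pow_eq (ϖ ^ n * a) p
  obtain ⟨d, rfl⟩ := Nat.exists_eq_add_of_lt hn
  refine ⟨u * a + ϖ ^ (d + 1) * a ^ 2 * g, ?_⟩
  rw [Units.val_pow_eq_pow_val, ha, hg, hp]
  ring

end general

section dvr

variable {O : Type*} [CommRing O] [IsDomain O] [IsDiscreteValuationRing O]

variable {ϖ : O} {p e : ℕ} {u : Oˣ}

omit [IsDiscreteValuationRing O] in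
theorem eq_one_of_pow_eq_one (hϖ : Irreducible ϖ) (hp : (p : O) = u * ϖ ^ e) {n : ℕ} (hn : e < n)
    {t : Oˣ} (ht : t ∈ U ϖ n) (h1 : t ^ p = 1) : t = 1 := by
  rw [mem_U] at ht
  obtain ⟨a, ha⟩ := ht
  obtain ⟨g, hg⟩ := exists_one_add_pow_eq (ϖ ^ n * a) p
  obtain ⟨d, rfl⟩ := Nat.exists_eq_add_of_lt hn
  have h2 : ((t ^ p : Oˣ) : O) = 1 := by rw [h1]; rfl
  rw [Units.val_pow_eq_pow_val, ha, hg, hp] at h2
  have h3 : ϖ ^ (e + d + 1) * ϖ ^ e * a * (u + ϖ * (ϖ ^ d * a * g)) = 0 := by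
    have : (1 : O) + ↑u * ϖ ^ e * (ϖ ^ (e + d + 1) * a) + (ϖ ^ (e + d + 1) * a) ^ 2 * g - 1 = 0 := by
      rw [h2]; ring
    rw [← this]; ring
  have hϖ0 : ϖ ≠ 0 := hϖ.ne_zero
  have h4 : (u : O) + ϖ * (ϖ ^ d * a * g) ≠ 0 := by
    intro h0
    apply hϖ.not_isUnit
    have : ϖ * (-(ϖ ^ d * a * g)) = u := by linear_combination -h0
    exact isUnit_of_mul_isUnit_left (this ▸ u.isUnit)
  have h5 : a = 0 := by
    rcases mul_eq_zero.mp h3 with h | h
    · rcases mul_eq_zero.mp h with h | h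
      · rcases mul_eq_zero.mp h with h | h
        · exact absurd h (pow_ne_zero _ hϖ0)
        · exact absurd h (pow_ne_zero _ hϖ0)
      · exact h
    · exact absurd h h4
  apply Units.ext
  rw [ha, h5]
  simp

theorem exists_approx (hϖ : Irreducible ϖ) (hp : (p : O) = u * ϖ ^ e) {m : ℕ} (hm : e < m)
    {v : Oˣ} (hv : v ∈ U ϖ (m + e)) : ∃ t ∈ U ϖ m, v / t ^ p ∈ U ϖ (m + e + 1) := by
  rw [mem_U] at hv
  obtain ⟨b, hb⟩ := hv
  obtain ⟨d, rfl⟩ := Nat.exists_eq_add_of_lt hm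
  set z : O := ϖ ^ (e + d + 1) * ((u⁻¹ : Oˣ) * b) with hz
  have hunit : IsUnit (1 + z) := by
    have h1 : IsUnit (1 - (-z)) := by
      apply IsLocalRing.isUnit_one_sub_self_of_mem_nonunits
      rw [mem_nonunits_iff]
      intro h
      apply hϖ.not_isUnit
      have h2 : IsUnit z := by simpa using h
      rw [hz, pow_succ, mul_assoc, mul_comm (ϖ ^ (e + d)), mul_assoc] at h2
      exact isUnit_of_mul_isUnit_left h2
    simpa using h1
  obtain ⟨t, ht⟩ := hunit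
  obtain ⟨g, hg⟩ := exists_one_add_pow_eq z p
  refine ⟨t, mem_U.mpr ⟨_, by rw [ht, hz]⟩, ?_⟩
  rw [div_mem_U]
  refine ⟨-(ϖ ^ d * ((u⁻¹ : Oˣ) * b) ^ 2 * g), ?_⟩
  rw [Units.val_pow_eq_pow_val, ht, hg, hp, hb, hz]
  have hu : (u : O) * ((u⁻¹ : Oˣ) : O) = 1 := by simp
  linear_combination (-(ϖ ^ e * ϖ ^ (e + d + 1) * b)) * hu

theorem exists_pow_eq [IsAdicComplete (IsLocalRing.maximalIdeal O) O]
    (hϖ : Irreducible ϖ) (hp : (p : O) = u * ϖ ^ e) (hp0 : p ≠ 0) {n : ℕ} (hn : e < n)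
    {v : Oˣ} (hv : v ∈ U ϖ (n + e)) : ∃ t ∈ U ϖ n, t ^ p = v := by
  have hmax : ∀ k : ℕ, (IsLocalRing.maximalIdeal O ^ k • ⊤ : Submodule O O)
      = Ideal.span {ϖ ^ k} := by
    intro k
    rw [smul_eq_mul, Ideal.mul_top, hϖ.maximalIdeal_eq, Ideal.span_singleton_pow]
  have step : ∀ (k : ℕ) (T : Oˣ), (T ∈ U ϖ n ∧ v / T ^ p ∈ U ϖ (n + e + k)) →
      ∃ T' : Oˣ, (T' ∈ U ϖ n ∧ v / T' ^ p ∈ U ϖ (n + e + (k + 1))) ∧ T' / T ∈ U ϖ (n + k) := by
    rintro k T ⟨hT1, hT2⟩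
    have hT2' : v / T ^ p ∈ U ϖ (n + k + e) := by
      have : n + k + e = n + e + k := by ring
      rw [this]; exact hT2
    obtain ⟨t, ht1, ht2⟩ := exists_approx hϖ hp (m := n + k) (by omega) hT2'
    refine ⟨T * t, ⟨mul_mem hT1 (U_anti ϖ (by omega) ht1), ?_⟩, ?_⟩
    · have h1 : v / (T * t) ^ p = v / T ^ p / t ^ p := by
        rw [mul_pow, div_div]
      have h2 : n + e + (k + 1) = n + k + e + 1 := by ring
      rw [h1, h2]; exact ht2
    · have : T * t / T = t := by rw [mul_comm, mul_div_assoc, div_self', mul_one]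
      rw [this]; exact ht1
  choose! F hF using step
  let seq : ℕ → Oˣ := fun k => Nat.rec 1 (fun k T => F k T) k
  have hseq0 : seq 0 = 1 := rfl
  have hseqS : ∀ k, seq (k + 1) = F k (seq k) := fun k => rfl
  have hP : ∀ k, seq k ∈ U ϖ n ∧ v / seq k ^ p ∈ U ϖ (n + e + k) := by
    intro k
    induction k with
    | zero => rw [hseq0]; exact ⟨one_mem _, by simpa using hv⟩
    | succ k ih => rw [hseqS]; exact (hF k _ ih).1
  have hQ : ∀ k, seq (k + 1) / seq k ∈ U ϖ (n + k) := by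
    intro k
    rw [hseqS]; exact (hF k _ (hP k)).2
  have hcauchy : AdicCompletion.IsAdicCauchy (IsLocalRing.maximalIdeal O) O
      (fun k => Units.val (seq k)) := by
    rw [AdicCompletion.isAdicCauchy_iff]
    intro k
    rw [hmax, SModEq.comm, SModEq.sub_mem]
    exact div_mem_principalUnits.mp (U_anti ϖ (by omega) (hQ k))
  obtain ⟨L, hL⟩ := IsPrecomplete.prec (I := IsLocalRing.maximalIdeal O) inferInstance hcauchy
  have hL' : ∀ k, (seq k).val - L ∈ Ideal.span {ϖ ^ k} := by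
    intro k
    have := hL k
    rwa [hmax, SModEq.sub_mem] at this
  have hLp : L ^ p = v := by
    rw [← sub_eq_zero]
    apply IsHausdorff.haus (I := IsLocalRing.maximalIdeal O) inferInstance
    intro k
    rw [hmax, SModEq.sub_mem, sub_zero]
    have h1 : (seq k).val ^ p - L ^ p ∈ Ideal.span {ϖ ^ k} :=
      Ideal.mem_of_dvd _ (sub_dvd_pow_sub_pow _ _ p) (hL' k)
    have h2 : (v : O) - (seq k ^ p).val ∈ Ideal.span {ϖ ^ k} :=
      div_mem_principalUnits.mp (U_anti ϖ (by omega) (hP k).2)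
    rw [Units.val_pow_eq_pow_val] at h2
    have h3 : L ^ p - (v : O) = -(((seq k).val ^ p - L ^ p) + ((v : O) - (seq k).val ^ p)) := by
      ring
    rw [h3]
    exact neg_mem (add_mem h1 h2)
  have hLunit : IsUnit L := by
    rw [← isUnit_pow_iff hp0, hLp]
    exact v.isUnit
  obtain ⟨t, rfl⟩ := hLunit
  refine ⟨t, ?_, ?_⟩
  · rw [mem_principalUnits]
    have h1 := hL' n
    have h2 := mem_principalUnits.mp (hP n).1
    have h3 : (t : O) - 1 = -((seq n).val - t) + ((seq n).val - 1) := by ring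
    rw [h3]
    exact add_mem (neg_mem h1) h2
  · apply Units.ext
    rw [Units.val_pow_eq_pow_val, hLp]

theorem map_pow_U [IsAdicComplete (IsLocalRing.maximalIdeal O) O]
    (hϖ : Irreducible ϖ) (hp : (p : O) = u * ϖ ^ e) (hp0 : p ≠ 0) {n : ℕ} (hn : e < n) :
    (U ϖ n).map (powMonoidHom p : Oˣ →* Oˣ) = U ϖ (n + e) := by
  ext v
  rw [Subgroup.mem_map]
  constructor
  · rintro ⟨t, ht, rfl⟩
    exact pow_mem_U hp hn ht
  · intro hv
    obtain ⟨t, ht, rfl⟩ := exists_pow_eq hϖ hp hp0 hn hv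
    exact ⟨t, ht, rfl⟩

omit [IsDiscreteValuationRing O] in
theorem U_inf_ker_pow (hϖ : Irreducible ϖ) (hp : (p : O) = u * ϖ ^ e) {n : ℕ} (hn : e < n) :
    U ϖ n ⊓ (powMonoidHom p : Oˣ →* Oˣ).ker = ⊥ := by
  rw [Subgroup.eq_bot_iff_forall]
  rintro t ⟨h1, h2⟩
  exact eq_one_of_pow_eq_one hϖ hp hn h1 h2

theorem relIndex_U (hϖ : Irreducible ϖ) {n : ℕ} (hn : e < n) :
    (U ϖ (n + e)).relIndex (U ϖ n) = Nat.card (O ⧸ Ideal.span {ϖ ^ e}) := by
  have hex : ∀ t : U ϖ n, ∃ a : O, ((t : Oˣ) : O) = 1 + ϖ ^ n * a := fun t => mem_U.mp t.2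
  choose c hc using hex
  have hϖn : ϖ ^ n ≠ 0 := pow_ne_zero _ hϖ.ne_zero
  have hmul : ∀ s t : U ϖ n, c (s * t) = c s + c t + ϖ ^ n * (c s * c t) := by
    intro s t
    have h1 := hc (s * t)
    rw [Subgroup.coe_mul, Units.val_mul, hc s, hc t] at h1
    have : ϖ ^ n * (c (s * t)) = ϖ ^ n * (c s + c t + ϖ ^ n * (c s * c t)) := by
      linear_combination -h1
    exact mul_left_cancel₀ hϖn this
  let ψ : U ϖ n →* Multiplicative (O ⧸ Ideal.span {ϖ ^ e}) :=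
    MonoidHom.mk' (fun t => Multiplicative.ofAdd (Ideal.Quotient.mk _ (c t))) (by
      intro s t
      rw [← ofAdd_add, ← map_add]
      congr 1
      rw [Ideal.Quotient.eq, hmul, Ideal.mem_span_singleton]
      have : c s + c t + ϖ ^ n * (c s * c t) - (c s + c t) = ϖ ^ n * (c s * c t) := by ring
      rw [this]
      exact Dvd.dvd.mul_right (pow_dvd_pow ϖ hn.le) _)
  have hψ : ∀ t, ψ t = Multiplicative.ofAdd (Ideal.Quotient.mk _ (c t)) := fun t => rfl
  have hker : ψ.ker = (U ϖ (n + e)).subgroupOf (U ϖ n) := by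
    ext t
    rw [MonoidHom.mem_ker, Subgroup.mem_subgroupOf, mem_U, hψ, ofAdd_eq_one,
      Ideal.Quotient.eq_zero_iff_mem, Ideal.mem_span_singleton]
    constructor
    · rintro ⟨a, ha⟩
      exact ⟨a, by rw [hc t, ha]; ring⟩
    · rintro ⟨a, ha⟩
      refine ⟨a, ?_⟩
      rw [hc t] at ha
      have : ϖ ^ n * c t = ϖ ^ n * (ϖ ^ e * a) := by linear_combination ha
      exact mul_left_cancel₀ hϖn this
  have hsurj : Function.Surjective ψ := by
    intro y
    obtain ⟨a, ha⟩ := Ideal.Quotient.mk_surjective (Multiplicative.toAdd y)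
    have hunit : IsUnit (1 + ϖ ^ n * a) := by
      have h1 : IsUnit (1 - (-(ϖ ^ n * a))) := by
        apply IsLocalRing.isUnit_one_sub_self_of_mem_nonunits
        rw [mem_nonunits_iff]
        intro h
        apply hϖ.not_isUnit
        have h2 : IsUnit (ϖ ^ n * a) := by simpa using h
        have h3 : IsUnit (ϖ ^ n) := isUnit_of_mul_isUnit_left h2
        exact (isUnit_pow_iff (by omega)).mp h3
      simpa using h1
    obtain ⟨t, ht⟩ := hunit
    refine ⟨⟨t, mem_U.mpr ⟨a, ht⟩⟩, ?_⟩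
    rw [hψ]
    have h1 := hc ⟨t, mem_U.mpr ⟨a, ht⟩⟩
    simp only [ht] at h1
    have h2 : c ⟨t, mem_U.mpr ⟨a, ht⟩⟩ = a := by
      have : ϖ ^ n * c ⟨t, mem_U.mpr ⟨a, ht⟩⟩ = ϖ ^ n * a := by linear_combination -h1
      exact mul_left_cancel₀ hϖn this
    rw [h2, ha, ofAdd_toAdd]
  rw [Subgroup.relIndex, ← hker, Subgroup.index_ker, MonoidHom.range_eq_top.mpr hsurj,
    Subgroup.card_top]
  exact Nat.card_congr Multiplicative.toAdd

/-- The unit index formula: `[Oˣ : (Oˣ)^p] = #(O/p) * #μ_p(O)`. -/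
theorem index_range_pow_units [IsAdicComplete (IsLocalRing.maximalIdeal O) O]
    [Finite (IsLocalRing.ResidueField O)] [CharZero O] (p : ℕ) (hp0 : p ≠ 0) :
    (powMonoidHom p : Oˣ →* Oˣ).range.index
      = Nat.card (O ⧸ Ideal.span {(p : O)}) * Nat.card (powMonoidHom p : Oˣ →* Oˣ).ker := by
  obtain ⟨ϖ, hϖ⟩ := IsDiscreteValuationRing.exists_irreducible O
  have hpO : (p : O) ≠ 0 := Nat.cast_ne_zero.mpr hp0
  obtain ⟨e, u, hp⟩ := IsDiscreteValuationRing.eq_unit_mul_pow_irreducible hpO hϖ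
  have hfin : Finite (O ⧸ Ideal.span {ϖ ^ (e + 1)}) := by
    have h1 : Finite (O ⧸ IsLocalRing.maximalIdeal O) :=
      inferInstanceAs (Finite (IsLocalRing.ResidueField O))
    have h2 := Ideal.finite_quotient_pow (IsNoetherian.noetherian (IsLocalRing.maximalIdeal O))
      (e + 1)
    rwa [hϖ.maximalIdeal_eq, Ideal.span_singleton_pow] at h2
  have hmap := map_pow_U hϖ hp hp0 (n := e + 1) (by omega)
  have key := index_range_mul_card_ker_inf (powMonoidHom p : Oˣ →* Oˣ) (U ϖ (e + 1))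
    (by rw [hmap]; exact U_anti ϖ (by omega))
  rw [U_inf_ker_pow hϖ hp (by omega), hmap, relIndex_U hϖ (by omega)] at key
  have hspan : Ideal.span {(p : O)} = Ideal.span {ϖ ^ e} := by
    rw [hp, Ideal.span_singleton_mul_left_unit u.isUnit]
  rw [hspan, ← key]
  simp

end dvr

end Fermat.Agent.S55.LOC
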